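import Mathlib
import Fermat.Prelude.Def_AlgebraicCurve_Correspondence

/-!
# S19 / LD : pull back of divisor classes along an embedding of function fields

* `pushforwardAlong_pullbackAlong` : `φ_* φ^* D = [F' : F] D`;
* `pb φ hφ hFI : Pic0 K F →+ Pic0 K F'`, and `finrank_smul_eq_zero_of_pb_eq_zero` : its kernel is killed by `[F' : F]`;
* `pb_smul` : compatibility with semilinear automorphisms.
-/

set_option autoImplicit false
set_option linter.style.haveILetI false

open AlgebraicCurve

namespace Fermat.Agent.S19.LD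

noncomputable section

variable {K F F' : Type*} [Field K] [Field F] [Field F'] [Algebra K F] [Algebra K F']

section PushPull

variable [HasPrincipalDivisors K F'] (φ : F →ₐ[K] F') (hφ : φ.toRingHom.IsIntegral)

/-- `∑ e f = n` from the fundamental identity `∑ e deg w = n deg v`. -/
theorem sum_ramificationIndexAlong_mul_inertiaDegAlong (hFI : FundamentalIdentityAlong K φ hφ)
    (hdeg : ∀ v : Place K F, v.deg ≠ 0) (v : Place K F) :
    ∑ w ∈ Place.fiberAlong φ hφ v,
      (w.ramificationIndexAlong φ : ℤ) * (w.inertiaDegAlong φ hφ : ℤ) = (finrankAlong K φ : ℤ) := by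
  letI := algebraAlong φ
  haveI := isScalarTower_along φ
  haveI := isIntegral_along φ hφ
  haveI : FundamentalIdentity K F F' := hFI
  have h := FundamentalIdentity.sum_ramificationIndex_mul_deg (K := K) (F := F) (F' := F') v
  have hv : (v.deg : ℤ) ≠ 0 := by exact_mod_cast hdeg v
  apply mul_right_cancel₀ hv
  change (∑ w ∈ v.fiber F', (w.ramificationIndex F : ℤ) * (w.inertiaDeg F : ℤ)) * (v.deg : ℤ)
    = (Module.finrank F F' : ℤ) * (v.deg : ℤ)
  rw [← h, Finset.sum_mul]
  refine Finset.sum_congr rfl fun w hw => ?_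
  have htower : ((w.restrict F).deg : ℤ) * (w.inertiaDeg F : ℤ) = (w.deg : ℤ) := by
    exact_mod_cast congrArg (Nat.cast (R := ℤ)) (w.deg_restrict_mul_inertiaDeg (F := F))
  rw [Place.mem_fiber.mp hw] at htower
  rw [← htower]
  ring

theorem pushforwardAlong_pullbackAlong (hFI : FundamentalIdentityAlong K φ hφ)
    (hdeg : ∀ v : Place K F, v.deg ≠ 0) (D : Divisor K F) :
    Divisor.pushforwardAlong φ hφ (Divisor.pullbackAlong φ hφ D) = finrankAlong K φ • D := by
  induction D using Finsupp.induction_linear with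
  | zero => simp
  | add D E hD hE => rw [map_add, map_add, hD, hE, smul_add]
  | single v n =>
    rw [Divisor.pullbackAlong_single, map_sum]
    have h1 : ∀ W ∈ Place.fiberAlong φ hφ v,
        Divisor.pushforwardAlong φ hφ (Finsupp.single W (n * W.ramificationIndexAlong φ))
          = Finsupp.single v
            (n * ((W.ramificationIndexAlong φ : ℤ) * (W.inertiaDegAlong φ hφ : ℤ))) := by
      intro W hW
      rw [Divisor.pushforwardAlong_single, Place.mem_fiberAlong.mp hW, mul_assoc]
    rw [Finset.sum_congr rfl h1, ← Finsupp.single_finsetSum, ← Finset.mul_sum,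
      sum_ramificationIndexAlong_mul_inertiaDegAlong φ hφ hFI hdeg v, Finsupp.smul_single,
      nsmul_eq_mul, mul_comm]

/-- if `φ^* D` is principal then `[F' : F] D` is principal. -/
theorem isPrincipal_finrank_smul (hFI : FundamentalIdentityAlong K φ hφ)
    (hdeg : ∀ v : Place K F, v.deg ≠ 0) (hfin : FiniteAlong K φ) (hN : NormFormulaAlong K φ hfin)
    {D : Divisor K F} (hD : (Divisor.pullbackAlong φ hφ D).IsPrincipal) :
    (finrankAlong K φ • D).IsPrincipal := by
  rw [← pushforwardAlong_pullbackAlong φ hφ hFI hdeg]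
  exact Divisor.isPrincipal_pushforwardAlong φ hφ hfin hN hD

/-- pull back on degree zero divisors. -/
def pbDegZero (hFI : FundamentalIdentityAlong K φ hφ) :
    Divisor.degZero (K := K) (F := F) →+ Divisor.degZero (K := K) (F := F') :=
  ((Divisor.pullbackAlong φ hφ).domRestrict (Divisor.degZero (K := K) (F := F))).codRestrict _
    fun D => Divisor.pullbackAlong_mem_degZero φ hφ hFI D.2

@[simp]
theorem coe_pbDegZero (hFI : FundamentalIdentityAlong K φ hφ)
    (D : Divisor.degZero (K := K) (F := F)) :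
    (pbDegZero φ hφ hFI D : Divisor K F') = Divisor.pullbackAlong φ hφ (D : Divisor K F) := rfl

/-- pull back of divisor classes. -/
def pb (hFI : FundamentalIdentityAlong K φ hφ) : Pic0 K F →+ Pic0 K F' :=
  QuotientAddGroup.map _ _ (pbDegZero φ hφ hFI) (by
    rintro ⟨D, hD0⟩ hD
    simp only [AddSubgroup.mem_addSubgroupOf] at hD ⊢
    exact Divisor.isPrincipal_pullbackAlong φ hφ hD)

theorem pb_mk (hFI : FundamentalIdentityAlong K φ hφ) (D : Divisor.degZero (K := K) (F := F)) :
    pb φ hφ hFI (Pic0.mk D) = Pic0.mk (pbDegZero φ hφ hFI D) := rfl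

/-- the kernel of `φ^*` is killed by the degree. -/
theorem finrank_smul_eq_zero_of_pb_eq_zero (hFI : FundamentalIdentityAlong K φ hφ)
    (hdeg : ∀ v : Place K F, v.deg ≠ 0) (hfin : FiniteAlong K φ) (hN : NormFormulaAlong K φ hfin)
    (x : Pic0 K F) (hx : pb φ hφ hFI x = 0) : finrankAlong K φ • x = 0 := by
  obtain ⟨D, rfl⟩ := Pic0.mk_surjective x
  rw [pb_mk] at hx
  have h1 : (pbDegZero φ hφ hFI D : Divisor K F') ∈ Divisor.principal (K := K) (F := F') := by
    have := (QuotientAddGroup.eq_zero_iff _).mp hx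
    exact AddSubgroup.mem_addSubgroupOf.mp this
  have h2 := isPrincipal_finrank_smul φ hφ hFI hdeg hfin hN (D := (D : Divisor K F)) h1
  have h3 : (Pic0.mk (finrankAlong K φ • D) : Pic0 K F) = 0 := by
    apply (QuotientAddGroup.eq_zero_iff _).mpr
    exact AddSubgroup.mem_addSubgroupOf.mpr (by
      rw [AddSubgroup.coe_nsmul]
      exact h2)
  rw [← h3]
  exact (map_nsmul (QuotientAddGroup.mk' _) _ D).symm

end PushPull

section Equivariance

open scoped Pointwise

variable (φ : F →ₐ[K] F') (hφ : φ.toRingHom.IsIntegral)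
variable (g : SemilinearAut K F) (g' : SemilinearAut K F')

theorem comm_inv (hg : ∀ f : F, φ (g • f) = g' • φ f) (f : F) : φ (g⁻¹ • f) = g'⁻¹ • φ f := by
  have h := hg (g⁻¹ • f)
  rw [smul_inv_smul] at h
  rw [h, inv_smul_smul]

theorem restrictAlong_smul (hg : ∀ f : F, φ (g • f) = g' • φ f) (w : Place K F') :
    (g' • w).restrictAlong φ hφ = g • w.restrictAlong φ hφ := by
  apply Place.ext
  ext f
  rw [SemilinearAut.smul_toValuationSubring, ValuationSubring.mem_pointwise_smul_iff_inv_smul_mem]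
  change φ f ∈ (g' • w).toValuationSubring ↔ φ (g⁻¹ • f) ∈ w.toValuationSubring
  rw [SemilinearAut.smul_toValuationSubring, ValuationSubring.mem_pointwise_smul_iff_inv_smul_mem,
    comm_inv φ g g' hg]

theorem ramificationIndexAlong_smul (hg : ∀ f : F, φ (g • f) = g' • φ f) (w : Place K F') :
    (g' • w).ramificationIndexAlong φ = w.ramificationIndexAlong φ := by
  have key : ∀ n : ℕ, (0 < n ∧ ∃ f : F, f ≠ 0 ∧ (g' • w).ord (φ f) = n) ↔
      (0 < n ∧ ∃ f : F, f ≠ 0 ∧ w.ord (φ f) = n) := by
    intro n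
    constructor
    · rintro ⟨hn, f, hf, h⟩
      refine ⟨hn, g⁻¹ • f, by simpa using hf, ?_⟩
      rw [comm_inv φ g g' hg, ← h]
      have := SemilinearAut.ord_smul g' w (g'⁻¹ • φ f)
      rw [smul_inv_smul] at this
      exact this.symm
    · rintro ⟨hn, f, hf, h⟩
      refine ⟨hn, g • f, by simpa using hf, ?_⟩
      rw [hg, SemilinearAut.ord_smul, h]
  change sInf {n : ℕ | 0 < n ∧ ∃ f : F, f ≠ 0 ∧ (g' • w).ord (φ f) = n} =
    sInf {n : ℕ | 0 < n ∧ ∃ f : F, f ≠ 0 ∧ w.ord (φ f) = n}
  congr 1
  ext n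
  exact key n

variable [HasPrincipalDivisors K F']

theorem pullbackAlong_smul (hg : ∀ f : F, φ (g • f) = g' • φ f) (D : Divisor K F) :
    Divisor.pullbackAlong φ hφ (g • D) = g' • Divisor.pullbackAlong φ hφ D := by
  ext w
  rw [Divisor.pullbackAlong_apply, SemilinearAut.divisor_smul_apply,
    SemilinearAut.divisor_smul_apply, Divisor.pullbackAlong_apply]
  have h1 := restrictAlong_smul φ hφ g g' hg (g'⁻¹ • w)
  have h2 := ramificationIndexAlong_smul φ g g' hg (g'⁻¹ • w)
  rw [smul_inv_smul] at h1 h2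
  rw [h1, h2, inv_smul_smul]

theorem pb_smul (hFI : FundamentalIdentityAlong K φ hφ) (hg : ∀ f : F, φ (g • f) = g' • φ f)
    (x : Pic0 K F) : pb φ hφ hFI (g • x) = g' • pb φ hφ hFI x := by
  obtain ⟨D, rfl⟩ := Pic0.mk_surjective x
  rw [SemilinearAut.pic0_smul_mk, pb_mk, pb_mk, SemilinearAut.pic0_smul_mk]
  congr 1
  apply Subtype.ext
  exact pullbackAlong_smul φ hφ g g' hg (D : Divisor K F)

end Equivariance

end

end Fermat.Agent.S19.LD
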