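import Fermat.Agent.S19.LD.Abstract
import Fermat.Agent.S19.LD.Pull
import Fermat.Agent.S19.A.Defs
import Fermat.Agent.S37.HeckeInputs
import Fermat.Agent.S37.DivA
import Fermat.Agent.Crux.Reduce

/-!
# S19 / LD : reduction of S19 to admissible levels

`Crux.Admissible ℓ M` (`ℓ = 3 → 2 ∣ M`, `ℓ = 2 → 3 ∣ M`) is the hypothesis under which the good coordinate
(`GM.exists_goodCoord`), hence the good reduction package (`S37/Mod`, `S19/Geo0`), exists.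

`J₀(N)[ℓ ^ k]` is a Galois equivariant subquotient of `J₀(N r)[ℓ ^ (k + c)]` (`r = 1, 2, 3`), see `exists_subquotient_level`.
Hence (`hasFlatModel_of_admissible`): if `HasFlatModel ℓ` is stable under subquotients (`SubquotClosed ℓ`) and holds for
`J₀(M)[ℓ ^ k]` for all admissible `M` prime to `ℓ`, it holds for all levels prime to `ℓ`; `result_of` is the frozen S19.
-/

set_option autoImplicit false
set_option linter.style.haveILetI false

open AlgebraicCurve ModularCurve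

namespace Fermat.Agent.S19.LD

open Fermat.Agent.S19.A (Qb GQ Zl HasFlatModel)

noncomputable section

theorem gal_zsmul (N : ℕ) (σ : GQ) (n : ℤ) (x : JZero N) : σ • (n • x) = n • (σ • x) :=
  map_zsmul (DistribSMul.toAddMonoidHom (JZero N) σ) n x

theorem gal_zero (N : ℕ) (σ : GQ) : σ • (0 : JZero N) = 0 := smul_zero (A := JZero N) σ

/-- the Galois action on `J₀(N)[n]`. -/
def actT (N : ℕ) (n : ℤ) (σ : GQ) (x : Submodule.torsionBy ℤ (JZero N) n) :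
    Submodule.torsionBy ℤ (JZero N) n :=
  ⟨σ • (x : JZero N), by
    rw [Submodule.mem_torsionBy_iff, ← gal_zsmul, (Submodule.mem_torsionBy_iff _ _).mp x.2,
      gal_zero]⟩

@[simp] theorem coe_actT (N : ℕ) (n : ℤ) (σ : GQ) (x : Submodule.torsionBy ℤ (JZero N) n) :
    ((actT N n σ x : Submodule.torsionBy ℤ (JZero N) n) : JZero N) = σ • (x : JZero N) := rfl

/-- `HasFlatModel ℓ` is stable under Galois equivariant subquotients. -/
def SubquotClosed (ℓ : ℕ) : Prop :=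
  ∀ (G X : Type) [AddCommGroup G] [AddCommGroup X] (actG : GQ → G → G) (actX : GQ → X → X)
    (S : AddSubgroup G) (hS : ∀ σ, ∀ s ∈ S, actG σ s ∈ S) (φ : S →+ X), Function.Surjective φ →
    (∀ (σ : GQ) (s : S), φ ⟨actG σ s, hS σ s s.2⟩ = actX σ (φ s)) →
    HasFlatModel ℓ G actG → HasFlatModel ℓ X actX

section Level

variable (N r : ℕ) [NeZero N] [NeZero r]

/-- `π^* : J₀(N) → J₀(N r)`. -/
def pbLevel : JZero N →+ JZero (N * r) :=
  haveI : NeZero (N * r) := ⟨Nat.mul_ne_zero (NeZero.ne N) (NeZero.ne r)⟩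
  haveI := S37.hasPrincipalDivisors_FF (N * r)
  pb (heckeAlphaBar Qb N r) (ES.heckeAlphaBarIntegral N r) (S37.fundamentalIdentityAlong_heckeAlpha N r)

theorem heckeAlphaBar_gal (σ : GQ) (f : modularFunctionFieldBar N) :
    heckeAlphaBar Qb N r (arithmeticGalois (modularFunctionFieldFull N) σ • f) =
      arithmeticGalois (modularFunctionFieldFull (N * r)) σ • heckeAlphaBar Qb N r f := by
  apply Subtype.ext
  rw [coe_heckeAlphaBar, coe_arithmeticGalois_smul, coe_arithmeticGalois_smul, coe_heckeAlphaBar]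

theorem pbLevel_smul (σ : GQ) (x : JZero N) : pbLevel N r (σ • x) = σ • pbLevel N r x := by
  haveI : NeZero (N * r) := ⟨Nat.mul_ne_zero (NeZero.ne N) (NeZero.ne r)⟩
  haveI := S37.hasPrincipalDivisors_FF (N * r)
  exact pb_smul (heckeAlphaBar Qb N r) (ES.heckeAlphaBarIntegral N r)
    (arithmeticGalois (modularFunctionFieldFull N) σ)
    (arithmeticGalois (modularFunctionFieldFull (N * r)) σ)
    (S37.fundamentalIdentityAlong_heckeAlpha N r) (heckeAlphaBar_gal N r σ) x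

theorem finrankAlong_pos : 0 < finrankAlong Qb (heckeAlphaBar Qb N r) := by
  letI := algebraAlong (heckeAlphaBar Qb N r)
  haveI : Module.Finite (modularFunctionFieldBar N) (modularFunctionFieldBar (N * r)) :=
    ES.finiteAlong_heckeAlpha N r
  exact Module.finrank_pos (R := modularFunctionFieldBar N) (M := modularFunctionFieldBar (N * r))

theorem smul_eq_zero_of_pbLevel_eq_zero (x : JZero N) (hx : pbLevel N r x = 0) :
    finrankAlong Qb (heckeAlphaBar Qb N r) • x = 0 := by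
  haveI : NeZero (N * r) := ⟨Nat.mul_ne_zero (NeZero.ne N) (NeZero.ne r)⟩
  haveI := S37.hasPrincipalDivisors_FF (N * r)
  haveI := S24.finiteDimensional_FN N
  refine finrank_smul_eq_zero_of_pb_eq_zero (heckeAlphaBar Qb N r) (ES.heckeAlphaBarIntegral N r)
    (S37.fundamentalIdentityAlong_heckeAlpha N r) (fun v => ?_) (ES.finiteAlong_heckeAlpha N r)
    (S37.normFormulaAlong_heckeAlpha N r) x hx
  rw [S24.FF.deg_eq_one Qb (S24.jN N) (S24.transcendental_jN N) v]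
  exact one_ne_zero

end Level

theorem jZero_divisible (N : ℕ) [NeZero N] (n : ℕ) (hn : 0 < n) (x : JZero N) :
    ∃ y : JZero N, n • y = x := by
  have : S26.FF1 (AlgebraicClosure ℚ) (modularFunctionFieldBar N) :=
    S17.G.ff1_of_isFF _ (S17.FL (AlgebraicClosure ℚ) N)
  have halg : Algebra.IsAlgebraic ℚ (AlgebraicClosure ℚ) :=
    (inferInstance : @Algebra.IsAlgebraic ℚ (AlgebraicClosure ℚ) _ _
      (AlgebraicClosure.instAlgebra ℚ))
  exact S17.G.pic0_divisible (AlgebraicClosure ℚ) (modularFunctionFieldBar N)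
    ((IsAlgClosed.lift : AlgebraicClosure ℚ →ₐ[ℚ] ℂ) : AlgebraicClosure ℚ →+* ℂ) n hn x

theorem exists_subquotient_level_aux (N M : ℕ) [NeZero N] {ℓ : ℕ} (hℓ : ℓ.Prime) (k : ℕ)
    (π : JZero N →+ JZero M) (hπ : ∀ (σ : GQ) (x : JZero N), π (σ • x) = σ • π x)
    (d : ℕ) (hd : 0 < d) (hker : ∀ x : JZero N, π x = 0 → d • x = 0) :
    ∃ (c : ℕ) (S : AddSubgroup (Submodule.torsionBy ℤ (JZero M) ((ℓ : ℤ) ^ (k + c))))
      (hS : ∀ σ, ∀ s ∈ S, actT M ((ℓ : ℤ) ^ (k + c)) σ s ∈ S)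
      (φ : S →+ Submodule.torsionBy ℤ (JZero N) ((ℓ : ℤ) ^ k)), Function.Surjective φ ∧
      ∀ (σ : GQ) (s : S), φ ⟨actT M ((ℓ : ℤ) ^ (k + c)) σ s, hS σ s s.2⟩
        = actT N ((ℓ : ℤ) ^ k) σ (φ s) := by
  have h2 := jZero_divisible N ℓ hℓ.pos
  have h := exists_subquotient hℓ π hd hker h2 k
  obtain ⟨c, h⟩ := h
  obtain ⟨φ, h⟩ := h
  obtain ⟨hsurj, hφ⟩ := h
  have hS : ∀ σ, ∀ s ∈ imTors π ((ℓ : ℤ) ^ (k + c)),
      actT M ((ℓ : ℤ) ^ (k + c)) σ s ∈ imTors π ((ℓ : ℤ) ^ (k + c)) := by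
    rintro σ s ⟨x, hx, hxs⟩
    exact ⟨σ • x, by rw [← gal_zsmul, hx, gal_zero], by rw [hπ, hxs]; rfl⟩
  refine ⟨c, _, hS, φ, hsurj, ?_⟩
  rintro σ ⟨s, hs⟩
  have h3 := mem_imTors.mp hs
  obtain ⟨x, h4⟩ := h3
  obtain ⟨hx, hxs⟩ := h4
  have e1 : ((φ ⟨s, hs⟩ : Submodule.torsionBy ℤ (JZero N) ((ℓ : ℤ) ^ k)) : JZero N)
      = ((ℓ : ℤ) ^ c) • x := hφ ⟨s, hs⟩ x hx hxs
  have hx' : ((ℓ : ℤ) ^ (k + c)) • (σ • x) = 0 := by rw [← gal_zsmul, hx, gal_zero]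
  have hxs' : π (σ • x) = σ • (s : JZero M) := by rw [hπ, hxs]
  have e2 : ((φ ⟨actT M ((ℓ : ℤ) ^ (k + c)) σ s, hS σ s hs⟩ :
      Submodule.torsionBy ℤ (JZero N) ((ℓ : ℤ) ^ k)) : JZero N) = ((ℓ : ℤ) ^ c) • (σ • x) :=
    hφ ⟨actT M ((ℓ : ℤ) ^ (k + c)) σ s, hS σ s hs⟩ (σ • x) hx' hxs'
  apply Subtype.ext
  refine e2.trans ?_
  rw [coe_actT, e1, gal_zsmul]

/-- **`J₀(N)[ℓ ^ k]` is a Galois equivariant subquotient of `J₀(N r)[ℓ ^ (k + c)]`.** -/
theorem exists_subquotient_level (N r : ℕ) [NeZero N] [NeZero r] {ℓ : ℕ} (hℓ : ℓ.Prime) (k : ℕ) :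
    ∃ (c : ℕ) (S : AddSubgroup (Submodule.torsionBy ℤ (JZero (N * r)) ((ℓ : ℤ) ^ (k + c))))
      (hS : ∀ σ, ∀ s ∈ S, actT (N * r) ((ℓ : ℤ) ^ (k + c)) σ s ∈ S)
      (φ : S →+ Submodule.torsionBy ℤ (JZero N) ((ℓ : ℤ) ^ k)), Function.Surjective φ ∧
      ∀ (σ : GQ) (s : S), φ ⟨actT (N * r) ((ℓ : ℤ) ^ (k + c)) σ s, hS σ s s.2⟩
        = actT N ((ℓ : ℤ) ^ k) σ (φ s) :=
  exists_subquotient_level_aux N (N * r) hℓ k (pbLevel N r) (pbLevel_smul N r) _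
    (finrankAlong_pos N r) (smul_eq_zero_of_pbLevel_eq_zero N r)

/-- `r = 1`, `2` (`ℓ = 3`, `N` odd) or `3` (`ℓ = 2`, `3 ∤ N`). -/
theorem exists_admissible_mul (N ℓ : ℕ) (hℓ : ℓ.Prime) (hN : ¬ ℓ ∣ N) :
    ∃ r : ℕ, r ≠ 0 ∧ ¬ ℓ ∣ N * r ∧ Crux.Admissible ℓ (N * r) := by
  by_cases hadm : Crux.Admissible ℓ N
  · exact ⟨1, one_ne_zero, by rwa [mul_one], by rwa [mul_one]⟩
  · unfold Crux.Admissible at hadm
    rw [not_and_or] at hadm
    rcases hadm with h | h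
    · push Not at h
      obtain ⟨rfl, -⟩ := h
      exact ⟨2, two_ne_zero,
        fun h => hN ((Nat.Coprime.dvd_mul_right (by norm_num : Nat.Coprime 3 2)).mp h),
        fun _ => dvd_mul_left 2 N, fun h => by omega⟩
    · push Not at h
      obtain ⟨rfl, -⟩ := h
      exact ⟨3, three_ne_zero,
        fun h => hN ((Nat.Coprime.dvd_mul_right (by norm_num : Nat.Coprime 2 3)).mp h),
        fun h => by omega, fun _ => dvd_mul_left 3 N⟩

/-- **Reduction to admissible levels.** -/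
theorem hasFlatModel_of_admissible {ℓ : ℕ} (hℓ : ℓ.Prime) (hsq : SubquotClosed ℓ)
    (hadm : ∀ (M : ℕ) [NeZero M], ¬ ℓ ∣ M → Crux.Admissible ℓ M → ∀ k : ℕ,
      HasFlatModel ℓ (Submodule.torsionBy ℤ (JZero M) ((ℓ : ℤ) ^ k)) (actT M ((ℓ : ℤ) ^ k)))
    (N : ℕ) [NeZero N] (hN : ¬ ℓ ∣ N) (k : ℕ) :
    HasFlatModel ℓ (Submodule.torsionBy ℤ (JZero N) ((ℓ : ℤ) ^ k)) (actT N ((ℓ : ℤ) ^ k)) := by
  obtain ⟨r, hr, hM, hA⟩ := exists_admissible_mul N ℓ hℓ hN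
  haveI : NeZero r := ⟨hr⟩
  haveI : NeZero (N * r) := ⟨Nat.mul_ne_zero (NeZero.ne N) hr⟩
  obtain ⟨c, S, hS, φ, hsurj, heq⟩ := exists_subquotient_level N r hℓ k
  exact hsq _ _ _ _ S hS φ hsurj heq (hadm (N * r) hM hA (k + c))

/-- the frozen statement S19 from `HasFlatModel`. -/
theorem result_of {p ℓ k : ℕ}
    (h : HasFlatModel ℓ (Submodule.torsionBy ℤ (JZero p) ((ℓ : ℤ) ^ k)) (actT p ((ℓ : ℤ) ^ k))) :
    ∃ (H : Type) (_ : CommRing H) (_ : HopfAlgebra (GaloisRep.ratLocalizedAt ℓ) H),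
      Module.Finite (GaloisRep.ratLocalizedAt ℓ) H ∧ Module.Flat (GaloisRep.ratLocalizedAt ℓ) H ∧
      Coalgebra.IsCocomm (GaloisRep.ratLocalizedAt ℓ) H ∧
      ∃ e : WithConv (H →ₐ[GaloisRep.ratLocalizedAt ℓ] AlgebraicClosure ℚ) ≃
          ↥(Submodule.torsionBy ℤ (JZero p) ((ℓ : ℤ) ^ k)),
        (∀ f g, e (f * g) = e f + e g) ∧
        ∀ (σ : AlgebraicClosure ℚ ≃ₐ[ℚ] AlgebraicClosure ℚ)
          (f g : WithConv (H →ₐ[GaloisRep.ratLocalizedAt ℓ] AlgebraicClosure ℚ)),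
          (∀ h : H, g h = σ (f h)) → ((e g : JZero p)) = σ • (e f : JZero p) := by
  obtain ⟨H, i1, i2, h1, h2, h3, e, he, heq⟩ := h
  exact ⟨H, i1, i2, h1, h2, h3, e, he, fun σ f g hfg => congrArg Subtype.val (heq σ f g hfg)⟩

end

end Fermat.Agent.S19.LD
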