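import Mathlib

/-!
# S19 / LD : the level problem, abstract part

`π : J →+ J'` a homomorphism of abelian groups whose kernel is killed by `d > 0`, `J` divisible by `ℓ`.
Write `d = ℓ ^ c * d'` with `ℓ ∤ d'`.  Then `π x ↦ ℓ ^ c • x` is a well defined surjective homomorphism
`π (J[ℓ ^ (k + c)]) → J[ℓ ^ k]`; so `J[ℓ ^ k]` is a subquotient of `J'[ℓ ^ (k + c)]`, compatibly with every
family of operators commuting with `π`.
-/

set_option autoImplicit false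

namespace Fermat.Agent.S19.LD

variable {J J' : Type*} [AddCommGroup J] [AddCommGroup J']

/-- the image of `J[n]` in `J'[n]`. -/
def imTors (π : J →+ J') (n : ℤ) : AddSubgroup (Submodule.torsionBy ℤ J' n) where
  carrier := {s | ∃ x : J, n • x = 0 ∧ π x = (s : J')}
  zero_mem' := ⟨0, smul_zero _, by simp⟩
  add_mem' := by
    rintro a b ⟨x, hx, hxa⟩ ⟨y, hy, hyb⟩
    exact ⟨x + y, by rw [smul_add, hx, hy, add_zero], by rw [map_add, hxa, hyb]; rfl⟩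
  neg_mem' := by
    rintro a ⟨x, hx, hxa⟩
    exact ⟨-x, by rw [smul_neg, hx, neg_zero], by rw [map_neg, hxa]; rfl⟩

theorem mem_imTors {π : J →+ J'} {n : ℤ} {s : Submodule.torsionBy ℤ J' n} :
    s ∈ imTors π n ↔ ∃ x : J, n • x = 0 ∧ π x = (s : J') := Iff.rfl

/-- if `ℓ ^ m` and `ℓ ^ c * d'` (`ℓ ∤ d'`) kill `x` then so does `ℓ ^ c`. -/
theorem pow_smul_eq_zero_of_coprime {ℓ : ℕ} (hℓ : ℓ.Prime) {c d' m : ℕ} (hd' : ¬ ℓ ∣ d') {x : J}
    (h1 : ((ℓ : ℤ) ^ m) • x = 0) (h2 : (ℓ ^ c * d') • x = 0) : ((ℓ : ℤ) ^ c) • x = 0 := by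
  have hcop : IsCoprime ((ℓ : ℤ) ^ m) (d' : ℤ) := by
    apply IsCoprime.pow_left
    rw [Nat.isCoprime_iff_coprime]
    exact (Nat.Prime.coprime_iff_not_dvd hℓ).2 hd'
  obtain ⟨a, b, hab⟩ := hcop
  have h2' : ((d' : ℤ) * (ℓ : ℤ) ^ c) • x = 0 := by
    have : ((ℓ ^ c * d' : ℕ) : ℤ) • x = 0 := by rw [natCast_zsmul]; exact h2
    rw [← this]
    congr 1
    push_cast
    ring
  calc ((ℓ : ℤ) ^ c) • x = ((a * (ℓ : ℤ) ^ m + b * d') * (ℓ : ℤ) ^ c) • x := by rw [hab, one_mul]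
    _ = (a * (ℓ : ℤ) ^ c) • (((ℓ : ℤ) ^ m) • x) + b • (((d' : ℤ) * (ℓ : ℤ) ^ c) • x) := by
        rw [smul_smul, smul_smul, ← add_smul]
        congr 1
        ring
    _ = 0 := by rw [h1, h2', smul_zero, smul_zero, add_zero]

theorem exists_pow_smul_eq {ℓ : ℕ} (hdiv : ∀ x : J, ∃ y : J, ℓ • y = x) (c : ℕ) (x : J) :
    ∃ y : J, ((ℓ : ℤ) ^ c) • y = x := by
  induction c generalizing x with
  | zero => exact ⟨x, by simp⟩
  | succ c ih =>
    obtain ⟨y, hy⟩ := hdiv x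
    obtain ⟨z, hz⟩ := ih y
    refine ⟨z, ?_⟩
    rw [pow_succ', mul_smul, hz, natCast_zsmul, hy]

/-- **The abstract subquotient statement.** -/
theorem exists_subquotient {ℓ : ℕ} (hℓ : ℓ.Prime) (π : J →+ J') {d : ℕ} (hd : 0 < d)
    (hker : ∀ x : J, π x = 0 → d • x = 0) (hdiv : ∀ x : J, ∃ y : J, ℓ • y = x) (k : ℕ) :
    ∃ (c : ℕ) (φ : imTors π ((ℓ : ℤ) ^ (k + c)) →+ Submodule.torsionBy ℤ J ((ℓ : ℤ) ^ k)),
      Function.Surjective φ ∧
      ∀ (s : imTors π ((ℓ : ℤ) ^ (k + c))) (x : J), ((ℓ : ℤ) ^ (k + c)) • x = 0 →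
        π x = ((s : Submodule.torsionBy ℤ J' ((ℓ : ℤ) ^ (k + c))) : J') →
        ((φ s : Submodule.torsionBy ℤ J ((ℓ : ℤ) ^ k)) : J) = ((ℓ : ℤ) ^ c) • x := by
  classical
  obtain ⟨c, d', hd', rfl⟩ := Nat.exists_eq_pow_mul_and_not_dvd hd.ne' ℓ hℓ.ne_one
  -- uniqueness
  have huniq : ∀ x y : J, ((ℓ : ℤ) ^ (k + c)) • x = 0 → ((ℓ : ℤ) ^ (k + c)) • y = 0 → π x = π y →
      ((ℓ : ℤ) ^ c) • x = ((ℓ : ℤ) ^ c) • y := by
    intro x y hx hy hxy
    have h1 : ((ℓ : ℤ) ^ (k + c)) • (x - y) = 0 := by rw [smul_sub, hx, hy, sub_zero]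
    have h2 : (ℓ ^ c * d') • (x - y) = 0 := hker _ (by rw [map_sub, hxy, sub_self])
    have h3 := pow_smul_eq_zero_of_coprime hℓ hd' h1 h2
    rwa [smul_sub, sub_eq_zero] at h3
  have htors : ∀ x : J, ((ℓ : ℤ) ^ (k + c)) • x = 0 →
      ((ℓ : ℤ) ^ c) • x ∈ Submodule.torsionBy ℤ J ((ℓ : ℤ) ^ k) := by
    intro x hx
    rw [Submodule.mem_torsionBy_iff, smul_smul, ← pow_add]
    exact hx
  let ch : imTors π ((ℓ : ℤ) ^ (k + c)) → J := fun s => s.2.choose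
  have hch : ∀ s, ((ℓ : ℤ) ^ (k + c)) • ch s = 0 ∧
      π (ch s) = ((s : Submodule.torsionBy ℤ J' ((ℓ : ℤ) ^ (k + c))) : J') := fun s => s.2.choose_spec
  let φ : imTors π ((ℓ : ℤ) ^ (k + c)) →+ Submodule.torsionBy ℤ J ((ℓ : ℤ) ^ k) :=
    { toFun := fun s => ⟨((ℓ : ℤ) ^ c) • ch s, htors _ (hch s).1⟩
      map_zero' := by
        apply Subtype.ext
        have := huniq (ch 0) 0 (hch 0).1 (smul_zero _) (by rw [(hch 0).2, map_zero]; rfl)
        simpa using this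
      map_add' := by
        intro a b
        apply Subtype.ext
        have := huniq (ch (a + b)) (ch a + ch b) (hch _).1
          (by rw [smul_add, (hch a).1, (hch b).1, add_zero])
          (by rw [(hch _).2, map_add, (hch a).2, (hch b).2]; rfl)
        rw [smul_add] at this
        exact this }
  refine ⟨c, φ, ?_, ?_⟩
  · rintro ⟨y, hy⟩
    rw [Submodule.mem_torsionBy_iff] at hy
    obtain ⟨x, hx⟩ := exists_pow_smul_eq hdiv c y
    have hx0 : ((ℓ : ℤ) ^ (k + c)) • x = 0 := by rw [pow_add, mul_smul, hx, hy]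
    have hπ : π x ∈ Submodule.torsionBy ℤ J' ((ℓ : ℤ) ^ (k + c)) := by
      rw [Submodule.mem_torsionBy_iff, ← map_zsmul, hx0, map_zero]
    refine ⟨⟨⟨π x, hπ⟩, x, hx0, rfl⟩, ?_⟩
    apply Subtype.ext
    have := huniq (ch ⟨⟨π x, hπ⟩, x, hx0, rfl⟩) x (hch _).1 hx0 (hch _).2
    exact this.trans hx
  · intro s x hx hxs
    exact huniq (ch s) x (hch s).1 hx ((hch s).2.trans hxs.symm)

end Fermat.Agent.S19.LD
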