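import Fermat.Agent.S19.LD.Main
import Fermat.Agent.S19.A.Closure.Main
import Fermat.Agent.S19.A.Top

/-!
# S19 / LD : final form of the reduction to admissible levels

`S19_of_admissible` : the frozen S19 for all levels follows from `HasFlatModel` for `J₀(M)[ℓ ^ k]`, `M` admissible (stated with
`A.torsAct`).
-/

set_option autoImplicit false

open AlgebraicCurve ModularCurve

namespace Fermat.Agent.S19.LD

open Fermat.Agent.S19.A (Qb GQ Zl HasFlatModel torsAct)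

theorem subquotClosed (ℓ : ℕ) [Fact ℓ.Prime] : SubquotClosed ℓ := by
  intro G X _ _ actG actX S hS φ hφ heq h
  exact (h.subgroup S hS).of_surjective φ hφ heq

theorem actT_eq_torsAct (N : ℕ) (n : ℤ) : actT N n = torsAct N n := rfl

/-- **Reduction of S19 to admissible levels**, in terms of `A.torsAct`. -/
theorem hasFlatModel_of_admissible' {ℓ : ℕ} [Fact ℓ.Prime]
    (hadm : ∀ (M : ℕ) [NeZero M], ¬ ℓ ∣ M → Crux.Admissible ℓ M → ∀ k : ℕ,
      HasFlatModel ℓ (Submodule.torsionBy ℤ (JZero M) ((ℓ : ℤ) ^ k)) (torsAct M ((ℓ : ℤ) ^ k)))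
    (N : ℕ) [NeZero N] (hN : ¬ ℓ ∣ N) (k : ℕ) :
    HasFlatModel ℓ (Submodule.torsionBy ℤ (JZero N) ((ℓ : ℤ) ^ k)) (torsAct N ((ℓ : ℤ) ^ k)) :=
  hasFlatModel_of_admissible (Fact.out : ℓ.Prime) (subquotClosed ℓ) hadm N hN k

/-- the frozen S19 from the admissible levels. -/
theorem S19_of_admissible {ℓ : ℕ} [Fact ℓ.Prime]
    (hadm : ∀ (M : ℕ) [NeZero M], ¬ ℓ ∣ M → Crux.Admissible ℓ M → ∀ k : ℕ,
      HasFlatModel ℓ (Submodule.torsionBy ℤ (JZero M) ((ℓ : ℤ) ^ k)) (torsAct M ((ℓ : ℤ) ^ k)))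
    (p : ℕ) [NeZero p] (hℓp : ¬ ℓ ∣ p) (k : ℕ) :
    ∃ (H : Type) (_ : CommRing H) (_ : HopfAlgebra (GaloisRep.ratLocalizedAt ℓ) H),
      Module.Finite (GaloisRep.ratLocalizedAt ℓ) H ∧ Module.Flat (GaloisRep.ratLocalizedAt ℓ) H ∧
      Coalgebra.IsCocomm (GaloisRep.ratLocalizedAt ℓ) H ∧
      ∃ e : WithConv (H →ₐ[GaloisRep.ratLocalizedAt ℓ] AlgebraicClosure ℚ) ≃
          ↥(Submodule.torsionBy ℤ (JZero p) ((ℓ : ℤ) ^ k)),
        (∀ f g, e (f * g) = e f + e g) ∧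
        ∀ (σ : AlgebraicClosure ℚ ≃ₐ[ℚ] AlgebraicClosure ℚ)
          (f g : WithConv (H →ₐ[GaloisRep.ratLocalizedAt ℓ] AlgebraicClosure ℚ)),
          (∀ h : H, g h = σ (f h)) → ((e g : JZero p)) = σ • (e f : JZero p) :=
  result_of (hasFlatModel_of_admissible' hadm p hℓp k)

end Fermat.Agent.S19.LD
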